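import Mathlib
import Fermat.Prelude.Def_FLTPrelim_Ramification
import Fermat.Prelude.Def_EllipticCurve_FrobeniusTrace
import Fermat.Agent.MUL.F3.Transfer.PsiBound

set_option autoImplicit false

/-!
# Lib/Cyclo, part 1: roots of unity do not collapse under reduction at a prime not dividing `n`

`A` a valuation subring of a field `L`.
* `pow_eq_one_mem`: `x ^ n = 1`, `n ≠ 0` implies `x ∈ A`.
* `eq_one_of_sub_one_mem_nonunits`: `ξ ^ n = 1`, `ξ - 1 ∈ 𝔪_A`, `(n : L) ∉ 𝔪_A` imply `ξ = 1`.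
* `natCast_not_mem_nonunits`: `A` over `ℓ`, `ℓ ∤ n` imply `(n : L) ∉ 𝔪_A`.
* `frob_sub_pow_mem_nonunits`, `inertia_sub_mem_nonunits`: the congruences defining Frobenius
  elements and inertia elements, read in `L`.
-/

namespace Fermat.Agent.Cyclo

open ValuationSubring

section Roots

variable {L : Type*} [Field L] (A : ValuationSubring L)

theorem pow_eq_one_mem {x : L} {n : ℕ} (hn : n ≠ 0) (hx : x ^ n = 1) : x ∈ A := by
  rcases A.mem_or_inv_mem x with h | h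
  · exact h
  · have h1 : x = x⁻¹ ^ (n - 1) := by
      have hx0 : x ≠ 0 := by
        rintro rfl
        rw [zero_pow hn] at hx
        exact zero_ne_one hx
      have h2 : x ^ (n - 1) * x = 1 := by
        rw [← pow_succ, Nat.sub_add_cancel (Nat.one_le_iff_ne_zero.mpr hn), hx]
      rw [inv_pow]
      exact (eq_inv_of_mul_eq_one_right h2)
    rw [h1]
    exact pow_mem h _

theorem nonunits_add_mem {x y : L} (hx : x ∈ A.nonunits) (hy : y ∈ A.nonunits) :
    x + y ∈ A.nonunits := by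
  rw [A.mem_nonunits_iff_exists_mem_maximalIdeal] at hx hy ⊢
  obtain ⟨hxA, hx⟩ := hx
  obtain ⟨hyA, hy⟩ := hy
  exact ⟨A.add_mem _ _ hxA hyA, Ideal.add_mem _ hx hy⟩

theorem nonunits_mul_mem {x y : L} (hx : x ∈ A.nonunits) (hy : y ∈ A) :
    x * y ∈ A.nonunits := by
  rw [A.mem_nonunits_iff_exists_mem_maximalIdeal] at hx ⊢
  obtain ⟨hxA, hx⟩ := hx
  exact ⟨A.mul_mem _ _ hxA hy, Ideal.mul_mem_right (⟨y, hy⟩ : A) _ hx⟩

theorem nonunits_neg_mem {x : L} (hx : x ∈ A.nonunits) : -x ∈ A.nonunits := by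
  rw [A.mem_nonunits_iff_exists_mem_maximalIdeal] at hx ⊢
  obtain ⟨hxA, hx⟩ := hx
  exact ⟨A.neg_mem _ hxA, Ideal.neg_mem_iff _ |>.mpr hx⟩

theorem zero_mem_nonunits : (0 : L) ∈ A.nonunits := by
  rw [A.mem_nonunits_iff_exists_mem_maximalIdeal]
  exact ⟨A.zero_mem, Ideal.zero_mem _⟩

theorem one_not_mem_nonunits : (1 : L) ∉ A.nonunits := by
  intro h
  rw [A.mem_nonunits_iff_exists_mem_maximalIdeal] at h
  obtain ⟨_, h⟩ := h
  exact (Ideal.ne_top_iff_one _).mp (IsLocalRing.maximalIdeal.isMaximal A).ne_top h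

/-- `ξ ^ k - 1 ∈ 𝔪` if `ξ - 1 ∈ 𝔪`. -/
theorem pow_sub_one_mem_nonunits {ξ : L} (hξA : ξ ∈ A) (h : ξ - 1 ∈ A.nonunits) (k : ℕ) :
    ξ ^ k - 1 ∈ A.nonunits := by
  induction k with
  | zero => simp [zero_mem_nonunits A]
  | succ k ih =>
    have : ξ ^ (k + 1) - 1 = (ξ ^ k - 1) * ξ + (ξ - 1) := by ring
    rw [this]
    exact nonunits_add_mem A (nonunits_mul_mem A ih hξA) h

/-- If `ξ ≠ 1` is an `n`-th root of unity congruent to `1` modulo `𝔪_A`, then `n ∈ 𝔪_A`. -/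
theorem natCast_mem_nonunits_of_root {ξ : L} {n : ℕ} (hn : n ≠ 0) (hξ : ξ ^ n = 1) (hξ1 : ξ ≠ 1)
    (h : ξ - 1 ∈ A.nonunits) : (n : L) ∈ A.nonunits := by
  have hξA : ξ ∈ A := pow_eq_one_mem A hn hξ
  have hsum : ∑ i ∈ Finset.range n, ξ ^ i = 0 := by
    have h1 : (∑ i ∈ Finset.range n, ξ ^ i) * (ξ - 1) = 0 := by
      rw [geom_sum_mul, hξ, sub_self]
    rcases mul_eq_zero.mp h1 with h2 | h2
    · exact h2
    · exact absurd (sub_eq_zero.mp h2) hξ1
  have hmem : ∀ m : ℕ, ∑ i ∈ Finset.range m, ξ ^ i - (m : L) ∈ A.nonunits := by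
    intro m
    induction m with
    | zero => simp [zero_mem_nonunits A]
    | succ m ih =>
      have : ∑ i ∈ Finset.range (m + 1), ξ ^ i - ((m + 1 : ℕ) : L)
          = (∑ i ∈ Finset.range m, ξ ^ i - (m : L)) + (ξ ^ m - 1) := by
        rw [Finset.sum_range_succ]
        push_cast
        ring
      rw [this]
      exact nonunits_add_mem A ih (pow_sub_one_mem_nonunits A hξA h m)
  have := nonunits_neg_mem A (hmem n)
  rwa [hsum, zero_sub, neg_neg] at this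

theorem eq_one_of_sub_one_mem_nonunits {ξ : L} {n : ℕ} (hn : n ≠ 0) (hξ : ξ ^ n = 1)
    (hnA : (n : L) ∉ A.nonunits) (h : ξ - 1 ∈ A.nonunits) : ξ = 1 := by
  by_contra hξ1
  exact hnA (natCast_mem_nonunits_of_root A hn hξ hξ1 h)

/-- If `A` lies over `ℓ` and `ℓ ∤ n` then `n` is a unit of `A`. -/
theorem natCast_not_mem_nonunits {ℓ n : ℕ} (hℓ : ℓ.Prime) (hA : A.LiesOverPrime ℓ)
    (hn : ¬ ℓ ∣ n) : (n : L) ∉ A.nonunits := by
  intro h
  have hℓ' : (ℓ : L) ∈ A.nonunits := hA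
  have hcop : Nat.Coprime ℓ n := (Nat.Prime.coprime_iff_not_dvd hℓ).mpr hn
  have hgcd : ((Nat.gcd ℓ n : ℤ) : L) = ((ℓ : ℤ) : L) * (Nat.gcdA ℓ n : L)
      + ((n : ℤ) : L) * (Nat.gcdB ℓ n : L) := by
    rw [Nat.gcd_eq_gcd_ab]
    push_cast
    ring
  rw [hcop] at hgcd
  have hint : ∀ z : ℤ, (z : L) ∈ A := fun z => intCast_mem A z
  have h1 : (1 : L) ∈ A.nonunits := by
    have : (1 : L) = ((ℓ : ℤ) : L) * (Nat.gcdA ℓ n : L) + ((n : ℤ) : L) * (Nat.gcdB ℓ n : L) := by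
      rw [← hgcd]; simp
    rw [this]
    refine nonunits_add_mem A (nonunits_mul_mem A ?_ (hint _)) (nonunits_mul_mem A ?_ (hint _))
    · simpa using hℓ'
    · simpa using h
  exact one_not_mem_nonunits A h1

end Roots

section Congruences

variable {K L : Type*} [Field K] [Field L] [Algebra K L] (A : ValuationSubring L)

/-- A Frobenius element at `A` is congruent to `x ↦ x ^ q` modulo `𝔪_A`. -/
theorem frob_sub_pow_mem_nonunits {σ : L ≃ₐ[K] L} {q : ℕ} (hσ : A.IsFrobeniusAt σ q)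
    {a : L} (ha : a ∈ A) : σ a - a ^ q ∈ A.nonunits := by
  obtain ⟨hd, hfrob⟩ := hσ
  have h1 := hfrob (IsLocalRing.residue A ⟨a, ha⟩)
  have h2 : IsLocalRing.residue A
      ((⟨σ, hd⟩ : A.decompositionSubgroup K) • (⟨a, ha⟩ : A))
        = IsLocalRing.residue A (⟨a, ha⟩ ^ q) := by
    rw [map_pow]
    exact h1
  have h3 : IsLocalRing.residue A
      (((⟨σ, hd⟩ : A.decompositionSubgroup K) • (⟨a, ha⟩ : A)) - ⟨a, ha⟩ ^ q) = 0 := by
    rw [map_sub, h2, sub_self]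
  rw [IsLocalRing.residue_eq_zero_iff] at h3
  exact (A.mem_nonunits_iff_exists_mem_maximalIdeal).2 ⟨_, h3⟩

/-- An element of the inertia subgroup acts trivially modulo the maximal ideal. -/
theorem inertia_sub_mem_nonunits {σ : L ≃ₐ[K] L}
    (hσ : σ ∈ A.inertiaSubgroupIn K) {a : L} (ha : a ∈ A) : σ a - a ∈ A.nonunits := by
  obtain ⟨τ, hτ, rfl⟩ := hσ
  have hker : MulSemiringAction.toRingAut (A.decompositionSubgroup K)
      (IsLocalRing.ResidueField A) τ = 1 := hτ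
  have h1 : τ • (IsLocalRing.residue A ⟨a, ha⟩) = IsLocalRing.residue A ⟨a, ha⟩ := by
    have := congrArg (fun f : RingAut (IsLocalRing.ResidueField A) =>
      f (IsLocalRing.residue A ⟨a, ha⟩)) hker
    simpa using this
  have h2 : IsLocalRing.residue A (τ • (⟨a, ha⟩ : A)) = IsLocalRing.residue A ⟨a, ha⟩ := h1
  have h3 : IsLocalRing.residue A ((τ • (⟨a, ha⟩ : A)) - ⟨a, ha⟩) = 0 := by
    rw [map_sub, h2, sub_self]
  rw [IsLocalRing.residue_eq_zero_iff] at h3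
  exact (A.mem_nonunits_iff_exists_mem_maximalIdeal).2 ⟨_, h3⟩

end Congruences

end Fermat.Agent.Cyclo
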