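import Fermat.Agent.MUL.Orig.Lib.Cyclo.ModChar
import Fermat.Agent.MUL.Orig.L.Degen.Bridge

set_option autoImplicit false

/-!
# Lib/Cyclo, part 3: finite level and complex conjugation for the mod `n` cyclotomic character
-/

namespace Fermat.Agent.Cyclo

open Polynomial

section Level

variable (n : ℕ) [NeZero n]

/-- `ℚ(μ_n) ⊆ ℚ̄`. -/
noncomputable def cycloField : IntermediateField ℚ Qb :=
  IntermediateField.adjoin ℚ ((X ^ n - 1 : ℚ[X]).rootSet Qb)

theorem X_pow_sub_one_ne_zero' : (X ^ n - 1 : ℚ[X]) ≠ 0 := by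
  have := X_pow_sub_C_ne_zero (R := ℚ) (Nat.pos_of_ne_zero (NeZero.ne n)) 1
  simpa using this

theorem mem_cycloField_of_pow_eq_one {t : Qb} (ht : t ^ n = 1) : t ∈ cycloField n := by
  apply IntermediateField.subset_adjoin
  rw [mem_rootSet]
  refine ⟨X_pow_sub_one_ne_zero' n, ?_⟩
  simp [ht]

instance finiteDimensional_cycloField : FiniteDimensional ℚ (cycloField n) := by
  have : Finite ((X ^ n - 1 : ℚ[X]).rootSet Qb) := (rootSet_finite _ _).to_subtype
  apply IntermediateField.finiteDimensional_adjoin
  intro x _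
  exact (AlgebraicClosure.isAlgebraic ℚ).isIntegral.isIntegral x

instance normal_cycloField : Normal ℚ (cycloField n) := by
  have : IsSplittingField ℚ (cycloField n) (X ^ n - 1 : ℚ[X]) :=
    IntermediateField.adjoin_rootSet_isSplittingField (IsAlgClosed.splits _)
  exact Normal.of_isSplittingField (X ^ n - 1 : ℚ[X])

/-- **Finite level**: the mod `n` cyclotomic character is trivial on `Gal(ℚ̄/ℚ(μ_n))`. -/
theorem modChar_eq_one_of_fix_cycloField (σ : GQ) (h : ∀ x ∈ cycloField n, σ x = x) :
    modChar n σ = 1 :=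
  modChar_eq_one_of_fix n σ fun t ht => h t (mem_cycloField_of_pow_eq_one n ht)

theorem modChar_finiteLevel : ∃ L : IntermediateField ℚ Qb, FiniteDimensional ℚ L ∧ Normal ℚ L ∧
    ∀ σ : GQ, (∀ x ∈ L, σ x = x) → modChar n σ = 1 :=
  ⟨cycloField n, inferInstance, inferInstance, modChar_eq_one_of_fix_cycloField n⟩

end Level

section Conj

variable (n : ℕ) [NeZero n]

theorem complexConjugation_root {t : Qb} (ht : t ^ n = 1) : complexConjugation t = t⁻¹ := by
  have hinj : Function.Injective complexEmbedding := complexEmbedding.toRingHom.injective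
  apply hinj
  rw [complexEmbedding_complexConjugation, map_inv₀]
  have h1 : (complexEmbedding t) ^ n = 1 := by rw [← map_pow, ht, map_one]
  rw [Complex.inv_eq_conj (Complex.norm_eq_one_of_pow_eq_one h1 (NeZero.ne n))]

/-- **Complex conjugation**: `χ(c) = -1`. -/
theorem modChar_complexConjugation : modChar n complexConjugation = -1 := by
  apply Units.ext
  rw [Units.val_neg, Units.val_one]
  apply modChar_unique
  intro t ht
  rw [complexConjugation_root n ht]
  obtain ⟨m, hm⟩ := Nat.exists_eq_succ_of_ne_zero (NeZero.ne n)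
  subst hm
  rw [ZMod.val_neg_one]
  have ht0 : t ≠ 0 := by
    rintro rfl
    rw [zero_pow (Nat.succ_ne_zero m)] at ht
    exact zero_ne_one ht
  rw [pow_succ] at ht
  exact inv_eq_of_mul_eq_one_left ht

end Conj

end Fermat.Agent.Cyclo
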