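import Fermat.Agent.MUL.Orig.Lib.Cyclo.RootsReduce
import Fermat.Prelude.Def_GaloisRep_ComplexConjugation
import Fermat.Agent.MUL.Orig.S30.WilesIdentities

set_option autoImplicit false

/-!
# Lib/Cyclo, part 2: the mod `n` cyclotomic character of `G_ℚ`

`modChar n : G_ℚ →* (ZMod n)ˣ` (Mathlib's `modularCyclotomicCharacter` for `ℚ̄`), with
* `modChar_spec`, `modChar_unique`: `σ t = t ^ χ(σ)` for `t ^ n = 1`;
* `modChar_frobenius`: `χ(σ) = ℓ` for a Frobenius element at `ℓ ∤ n`;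
* `modChar_inertia`: `χ(σ) = 1` for `σ` in an inertia group at `ℓ ∤ n`;
* `modChar_finiteLevel`: `χ` is trivial on `Gal(ℚ̄/L)`, `L = ℚ(μ_n)` finite and normal;
* `modChar_complexConjugation`: `χ(c) = -1`.
-/

namespace Fermat.Agent.Cyclo

open ValuationSubring

/-- `ℚ̄`. -/
abbrev Qb : Type := AlgebraicClosure ℚ

/-- The absolute Galois group of `ℚ`. -/
abbrev GQ : Type := Qb ≃ₐ[ℚ] Qb

/-- The mod `n` cyclotomic character of `G_ℚ`. -/
noncomputable def modChar (n : ℕ) [NeZero n] : GQ →* (ZMod n)ˣ :=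
  (modularCyclotomicCharacter Qb (HasEnoughRootsOfUnity.natCard_rootsOfUnity Qb n)).comp
    (MulSemiringAction.toRingAut GQ Qb)

section Spec

variable (n : ℕ) [NeZero n]

theorem modChar_spec (σ : GQ) {t : Qb} (ht : t ^ n = 1) :
    σ t = t ^ ((modChar n σ : (ZMod n)ˣ) : ZMod n).val := by
  have h := modularCyclotomicCharacter.spec Qb
    (HasEnoughRootsOfUnity.natCard_rootsOfUnity Qb n) (MulSemiringAction.toRingAut GQ Qb σ)
    (t := (rootsOfUnity.mkOfPowEq t ht : Qbˣ)) (rootsOfUnity.mkOfPowEq t ht).2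
  simpa [modChar] using h

theorem modChar_unique (σ : GQ) {c : ZMod n} (hc : ∀ t : Qb, t ^ n = 1 → σ t = t ^ c.val) :
    ((modChar n σ : (ZMod n)ˣ) : ZMod n) = c := by
  symm
  apply modularCyclotomicCharacter.unique Qb
    (HasEnoughRootsOfUnity.natCard_rootsOfUnity Qb n) (MulSemiringAction.toRingAut GQ Qb σ)
  intro t ht
  have ht' : (t : Qb) ^ n = 1 := by
    have := (mem_rootsOfUnity n t).mp ht
    rw [← Units.val_pow_eq_pow_val, this, Units.val_one]
  exact hc t ht'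

theorem modChar_eq_one_of_fix (σ : GQ) (h : ∀ t : Qb, t ^ n = 1 → σ t = t) :
    modChar n σ = 1 := by
  apply Units.ext
  rw [Units.val_one]
  apply modChar_unique
  intro t ht
  rw [h t ht, ZMod.val_one_eq_one_mod, ← pow_eq_pow_mod 1 ht, pow_one]

theorem modChar_eq_natCast_of_pow (σ : GQ) (ℓ : ℕ) (h : ∀ t : Qb, t ^ n = 1 → σ t = t ^ ℓ) :
    ((modChar n σ : (ZMod n)ˣ) : ZMod n) = (ℓ : ZMod n) := by
  apply modChar_unique
  intro t ht
  rw [h t ht, ZMod.val_natCast, ← pow_eq_pow_mod ℓ ht]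

end Spec

section Local

variable (n : ℕ) [NeZero n]

/-- Two `n`-th roots of unity which are congruent modulo `𝔪_A` are equal, if `A` lies over a prime
not dividing `n`. -/
theorem root_eq_of_sub_mem_nonunits (A : ValuationSubring Qb) {ℓ : ℕ} (hℓ : ℓ.Prime)
    (hA : A.LiesOverPrime ℓ) (hn : ¬ ℓ ∣ n) {x y : Qb} (hx : x ^ n = 1) (hy : y ^ n = 1)
    (h : x - y ∈ A.nonunits) : x = y := by
  have hn0 : n ≠ 0 := NeZero.ne n
  have hy0 : y ≠ 0 := by
    rintro rfl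
    rw [zero_pow hn0] at hy
    exact zero_ne_one hy
  have hyinv : y⁻¹ ^ n = 1 := by rw [inv_pow, hy, inv_one]
  have hξ : (x * y⁻¹) ^ n = 1 := by rw [mul_pow, hx, hyinv, one_mul]
  have hmem : x * y⁻¹ - 1 ∈ A.nonunits := by
    have : x * y⁻¹ - 1 = (x - y) * y⁻¹ := by
      rw [sub_mul, mul_inv_cancel₀ hy0]
    rw [this]
    exact nonunits_mul_mem A h (pow_eq_one_mem A hn0 hyinv)
  have h1 := eq_one_of_sub_one_mem_nonunits A hn0 hξ (natCast_not_mem_nonunits A hℓ hA hn) hmem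
  have : x = x * y⁻¹ * y := by rw [mul_assoc, inv_mul_cancel₀ hy0, mul_one]
  rw [this, h1, one_mul]

/-- **Value at Frobenius.** -/
theorem modChar_frobenius {ℓ : ℕ} (hℓ : ℓ.Prime) (hn : ¬ ℓ ∣ n)
    (A : ValuationSubring Qb) (hA : A.LiesOverPrime ℓ) (σ : GQ) (hσ : A.IsFrobeniusAt σ ℓ) :
    ((modChar n σ : (ZMod n)ˣ) : ZMod n) = (ℓ : ZMod n) := by
  apply modChar_eq_natCast_of_pow
  intro t ht
  have hn0 : n ≠ 0 := NeZero.ne n
  refine root_eq_of_sub_mem_nonunits n A hℓ hA hn ?_ ?_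
    (frob_sub_pow_mem_nonunits A hσ (pow_eq_one_mem A hn0 ht))
  · rw [← map_pow, ht, map_one]
  · rw [← pow_mul, mul_comm, pow_mul, ht, one_pow]

/-- **Triviality on inertia.** -/
theorem modChar_inertia {ℓ : ℕ} (hℓ : ℓ.Prime) (hn : ¬ ℓ ∣ n)
    (A : ValuationSubring Qb) (hA : A.LiesOverPrime ℓ) (σ : GQ)
    (hσ : σ ∈ A.inertiaSubgroupIn ℚ) : modChar n σ = 1 := by
  apply modChar_eq_one_of_fix
  intro t ht
  have hn0 : n ≠ 0 := NeZero.ne n
  refine root_eq_of_sub_mem_nonunits n A hℓ hA hn ?_ ht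
    (inertia_sub_mem_nonunits A hσ (pow_eq_one_mem A hn0 ht))
  rw [← map_pow, ht, map_one]

end Local

end Fermat.Agent.Cyclo
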